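import Mathlib

/-!
# Program S, package SS/Node : the ABSORPTION lemma (leaf W3 of `blueprints/S34-Node.md`)

Pure commutative algebra, Mathlib only.  `O` is (in the application) the local ring of the model of
`X₀(qM)` at a crossing point `e` of the two components of the special fibre, `W₀ ⊂ O` the ring of
constants (a discrete valuation ring with uniformiser `ϖ`), `u`, `w` the two branch functions with
`(u, w, ϖ) = 𝔪_e` and `W₀ → O/𝔪_e` surjective (hypothesis `hres`).  The first-order Kronecker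
congruence gives `Ψ = u w + ϖ ρ` (`= 0` in `O`).  ABSORPTION: for every `n ≥ 1` the same `Ψ` can be
rewritten as `Ψ = uₙ wₙ - κₙ + ϖⁿ ρₙ` with `uₙ ≡ u`, `wₙ ≡ w (mod ϖ)` and a CONSTANT `κₙ ∈ ϖ W₀`;
the sequences `uₙ`, `wₙ`, `κₙ` are `ϖ`-adically Cauchy.  No power series, no completion.
-/

set_option autoImplicit false

namespace Fermat.Agent.SS

variable {O : Type*} [CommRing O]

/-- one absorption step, as an identity: if `ρ' = c + S u' + T w' + ϖ ρ₀` then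
`u' w' - κ + ϖ^(m+1) ρ' = (u' + ϖ^(m+1) T)(w' + ϖ^(m+1) S) - (κ - ϖ^(m+1) c)
  + ϖ^(m+2) (ρ₀ - ϖ^m T S)`. -/
theorem ss_absorb_identity (ϖ u' w' κ ρ' c S T ρ₀ : O) (m : ℕ)
    (hρ : ρ' = c + S * u' + T * w' + ϖ * ρ₀) :
    u' * w' - κ + ϖ ^ (m + 1) * ρ' =
      (u' + ϖ ^ (m + 1) * T) * (w' + ϖ ^ (m + 1) * S) - (κ - ϖ ^ (m + 1) * c) +
        ϖ ^ (m + 1 + 1) * (ρ₀ - ϖ ^ m * (T * S)) := by
  rw [hρ]
  ring

/-- every element is a constant plus a combination of `u'`, `w'`, `ϖ`, for `u' ≡ u`, `w' ≡ w`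
modulo `ϖ` -/
theorem ss_absorb_decomp (W₀ : Subring O) (ϖ u w : O)
    (hres : ∀ h : O, ∃ c ∈ W₀, h - c ∈ Ideal.span ({u, w, ϖ} : Set O))
    (u' w' : O) (hu : u' - u ∈ Ideal.span ({ϖ} : Set O))
    (hw : w' - w ∈ Ideal.span ({ϖ} : Set O)) (h : O) :
    ∃ c ∈ W₀, ∃ S T ρ₀ : O, h = c + S * u' + T * w' + ϖ * ρ₀ := by
  obtain ⟨c, hc, hmem⟩ := hres h
  rw [Ideal.mem_span_insert] at hmem
  obtain ⟨a, z, hz, hza⟩ := hmem
  rw [Ideal.mem_span_insert] at hz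
  obtain ⟨b, z', hz', hzb⟩ := hz
  rw [Ideal.mem_span_singleton'] at hz'
  obtain ⟨d, rfl⟩ := hz'
  rw [Ideal.mem_span_singleton'] at hu hw
  obtain ⟨e₁, he₁⟩ := hu
  obtain ⟨e₂, he₂⟩ := hw
  refine ⟨c, hc, a, b, d - a * e₁ - b * e₂, ?_⟩
  have hu' : u = u' - e₁ * ϖ := by rw [he₁]; ring
  have hw' : w = w' - e₂ * ϖ := by rw [he₂]; ring
  have : h = c + (a * u + (b * w + d * ϖ)) := by
    rw [← hzb, ← hza]; ring
  rw [this, hu', hw']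
  ring

/-- ABSORPTION, sequence form (leaf W3): there are sequences `U`, `V`, `K`, `P` (indexed so that
the index `m` corresponds to the exponent `n = m + 1`) with `U 0 = u`, `V 0 = w`, `K 0 = 0`,
`P 0 = ρ`, all `K m` constants in `ϖ W₀`, `U (m+1) ≡ U m`, `V (m+1) ≡ V m`,
`K (m+1) ≡ K m (mod ϖ^(m+1))`, and
`u w + ϖ ρ = U m · V m - K m + ϖ^(m+1) · P m` for all `m`. -/
theorem ss_absorb_seq (W₀ : Subring O) (ϖ u w ρ : O) (hϖ : ϖ ∈ W₀)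
    (hres : ∀ h : O, ∃ c ∈ W₀, h - c ∈ Ideal.span ({u, w, ϖ} : Set O)) :
    ∃ U V K P : ℕ → O, U 0 = u ∧ V 0 = w ∧ K 0 = 0 ∧ P 0 = ρ ∧
      (∀ m, U m - u ∈ Ideal.span ({ϖ} : Set O)) ∧
      (∀ m, V m - w ∈ Ideal.span ({ϖ} : Set O)) ∧
      (∀ m, K m ∈ W₀ ∧ K m ∈ Ideal.span ({ϖ} : Set O)) ∧
      (∀ m, U (m + 1) - U m ∈ Ideal.span ({ϖ ^ (m + 1)} : Set O)) ∧
      (∀ m, V (m + 1) - V m ∈ Ideal.span ({ϖ ^ (m + 1)} : Set O)) ∧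
      (∀ m, ∃ c ∈ W₀, K (m + 1) = K m - ϖ ^ (m + 1) * c) ∧
      (∀ m, u * w + ϖ * ρ = U m * V m - K m + ϖ ^ (m + 1) * P m) := by
  classical
  -- the state: `(u', w', κ, ρ')` with the invariants
  let Inv : ℕ → O × O × O × O → Prop := fun m s =>
    s.1 - u ∈ Ideal.span ({ϖ} : Set O) ∧ s.2.1 - w ∈ Ideal.span ({ϖ} : Set O) ∧
      s.2.2.1 ∈ W₀ ∧ s.2.2.1 ∈ Ideal.span ({ϖ} : Set O) ∧
      u * w + ϖ * ρ = s.1 * s.2.1 - s.2.2.1 + ϖ ^ (m + 1) * s.2.2.2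
  have step : ∀ (m : ℕ) (s : O × O × O × O), Inv m s →
      ∃ s' : O × O × O × O, Inv (m + 1) s' ∧
        s'.1 - s.1 ∈ Ideal.span ({ϖ ^ (m + 1)} : Set O) ∧
        s'.2.1 - s.2.1 ∈ Ideal.span ({ϖ ^ (m + 1)} : Set O) ∧
        ∃ c ∈ W₀, s'.2.2.1 = s.2.2.1 - ϖ ^ (m + 1) * c := by
    rintro m ⟨u', w', κ, ρ'⟩ ⟨hu, hw, hκ, hκϖ, heq⟩
    obtain ⟨c, hc, S, T, ρ₀, hρ⟩ := ss_absorb_decomp W₀ ϖ u w hres u' w' hu hw ρ'
    refine ⟨(u' + ϖ ^ (m + 1) * T, w' + ϖ ^ (m + 1) * S, κ - ϖ ^ (m + 1) * c,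
      ρ₀ - ϖ ^ m * (T * S)), ⟨?_, ?_, ?_, ?_, ?_⟩, ?_, ?_, c, hc, rfl⟩
    · have : u' + ϖ ^ (m + 1) * T - u = (u' - u) + (ϖ ^ m * T) * ϖ := by ring
      show u' + ϖ ^ (m + 1) * T - u ∈ _
      rw [this]
      exact Ideal.add_mem _ hu (Ideal.mul_mem_left _ _ (Ideal.mem_span_singleton_self ϖ))
    · have : w' + ϖ ^ (m + 1) * S - w = (w' - w) + (ϖ ^ m * S) * ϖ := by ring
      show w' + ϖ ^ (m + 1) * S - w ∈ _
      rw [this]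
      exact Ideal.add_mem _ hw (Ideal.mul_mem_left _ _ (Ideal.mem_span_singleton_self ϖ))
    · exact W₀.sub_mem hκ (W₀.mul_mem (W₀.pow_mem hϖ _) hc)
    · have : κ - ϖ ^ (m + 1) * c = κ - (ϖ ^ m * c) * ϖ := by ring
      show κ - ϖ ^ (m + 1) * c ∈ _
      rw [this]
      exact Ideal.sub_mem _ hκϖ (Ideal.mul_mem_left _ _ (Ideal.mem_span_singleton_self ϖ))
    · show u * w + ϖ * ρ = _
      rw [heq]
      exact ss_absorb_identity ϖ u' w' κ ρ' c S T ρ₀ m hρ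
    · show u' + ϖ ^ (m + 1) * T - u' ∈ _
      have : u' + ϖ ^ (m + 1) * T - u' = T * ϖ ^ (m + 1) := by ring
      rw [this]
      exact Ideal.mul_mem_left _ _ (Ideal.mem_span_singleton_self _)
    · show w' + ϖ ^ (m + 1) * S - w' ∈ _
      have : w' + ϖ ^ (m + 1) * S - w' = S * ϖ ^ (m + 1) := by ring
      rw [this]
      exact Ideal.mul_mem_left _ _ (Ideal.mem_span_singleton_self _)
  have inv0 : Inv 0 (u, w, 0, ρ) := by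
    refine ⟨by simp, by simp, W₀.zero_mem, Ideal.zero_mem _, ?_⟩
    show u * w + ϖ * ρ = u * w - 0 + ϖ ^ (0 + 1) * ρ
    ring
  -- the sequence of states, with the invariant bundled
  let seq : (m : ℕ) → {s : O × O × O × O // Inv m s} := fun m =>
    Nat.rec (motive := fun m => {s : O × O × O × O // Inv m s}) ⟨(u, w, 0, ρ), inv0⟩
      (fun m s => ⟨Classical.choose (step m s.1 s.2), (Classical.choose_spec (step m s.1 s.2)).1⟩) m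
  have hseq : ∀ m, (seq (m + 1)).1 = Classical.choose (step m (seq m).1 (seq m).2) := fun m => rfl
  refine ⟨fun m => (seq m).1.1, fun m => (seq m).1.2.1, fun m => (seq m).1.2.2.1,
    fun m => (seq m).1.2.2.2, rfl, rfl, rfl, rfl, fun m => (seq m).2.1, fun m => (seq m).2.2.1,
    fun m => ⟨(seq m).2.2.2.1, (seq m).2.2.2.2.1⟩, ?_, ?_, ?_, fun m => (seq m).2.2.2.2.2⟩
  · intro m
    show (seq (m + 1)).1.1 - (seq m).1.1 ∈ _
    rw [hseq]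
    exact (Classical.choose_spec (step m (seq m).1 (seq m).2)).2.1
  · intro m
    show (seq (m + 1)).1.2.1 - (seq m).1.2.1 ∈ _
    rw [hseq]
    exact (Classical.choose_spec (step m (seq m).1 (seq m).2)).2.2.1
  · intro m
    show ∃ c ∈ W₀, (seq (m + 1)).1.2.2.1 = (seq m).1.2.2.1 - ϖ ^ (m + 1) * c
    rw [hseq]
    exact (Classical.choose_spec (step m (seq m).1 (seq m).2)).2.2.2

/-- ABSORPTION, pointwise form (leaf W3 as stated in the blueprint): for every `n ≥ 1`,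
`u w + ϖ ρ = u' w' - κ + ϖ^n ρ'` with `u' ≡ u`, `w' ≡ w (mod ϖ)` and `κ ∈ W₀ ∩ ϖ O`. -/
theorem ss_absorb (W₀ : Subring O) (ϖ u w ρ : O) (hϖ : ϖ ∈ W₀)
    (hres : ∀ h : O, ∃ c ∈ W₀, h - c ∈ Ideal.span ({u, w, ϖ} : Set O)) (n : ℕ) (hn : 1 ≤ n) :
    ∃ u' w' κ ρ' : O, u' - u ∈ Ideal.span ({ϖ} : Set O) ∧ w' - w ∈ Ideal.span ({ϖ} : Set O) ∧
      κ ∈ W₀ ∧ κ ∈ Ideal.span ({ϖ} : Set O) ∧ u * w + ϖ * ρ = u' * w' - κ + ϖ ^ n * ρ' := by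
  obtain ⟨U, V, K, P, -, -, -, -, hU, hV, hK, -, -, -, heq⟩ := ss_absorb_seq W₀ ϖ u w ρ hϖ hres
  obtain ⟨m, rfl⟩ : ∃ m, n = m + 1 := ⟨n - 1, by omega⟩
  exact ⟨U m, V m, K m, P m, hU m, hV m, (hK m).1, (hK m).2, heq m⟩

/-- the node equation (leaf W4): if moreover `u w + ϖ ρ = 0` in `O` (Kronecker), then for every
`n ≥ 1` : `u' w' = κ - ϖ^n ρ'` with `u' ≡ u`, `w' ≡ w (mod ϖ)`, `κ ∈ W₀ ∩ ϖ O`. -/
theorem ss_node_eq (W₀ : Subring O) (ϖ u w ρ : O) (hϖ : ϖ ∈ W₀)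
    (hres : ∀ h : O, ∃ c ∈ W₀, h - c ∈ Ideal.span ({u, w, ϖ} : Set O))
    (hΨ : u * w + ϖ * ρ = 0) (n : ℕ) (hn : 1 ≤ n) :
    ∃ u' w' κ ρ' : O, u' - u ∈ Ideal.span ({ϖ} : Set O) ∧ w' - w ∈ Ideal.span ({ϖ} : Set O) ∧
      κ ∈ W₀ ∧ κ ∈ Ideal.span ({ϖ} : Set O) ∧ u' * w' = κ - ϖ ^ n * ρ' := by
  obtain ⟨u', w', κ, ρ', hu, hw, hκ, hκϖ, heq⟩ := ss_absorb W₀ ϖ u w ρ hϖ hres n hn
  refine ⟨u', w', κ, ρ', hu, hw, hκ, hκϖ, ?_⟩
  rw [hΨ] at heq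
  linear_combination -heq

end Fermat.Agent.SS
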