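import Mathlib
import Fermat.Agent.G.Conj.Formal

/-!
# Program S, package `SS/Node`, leaf W1 (formal part) : the Kronecker congruence for the whole
characteristic polynomial

`R` a domain with a primitive `ℓ`-th root of unity `ζ`, `π : R → k` a ring hom to a ring of
characteristic `ℓ` with `π ζ = 1`.  For `u ∈ R((x))` the polynomial
`∏_{i<ℓ} (Y - u(ζ^i x)) ∈ R((x))[Y]` has coefficients in `R((x^ℓ))`, i.e. it is `Ψ(x^ℓ)` for a monic
`Ψ ∈ R((t))[Y]` of degree `ℓ`, and `π Ψ = Y^ℓ - φ(π u)` (`φ` the coefficientwise Frobenius).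
Hence `(Y - u(t^ℓ)) Ψ` reduces to `(Y - ū(t^ℓ)) (Y^ℓ - φ ū)`.   Prefix `ssnc`.
-/

set_option autoImplicit false

noncomputable section

namespace Fermat.Agent.G

open ModularCurve Polynomial

section CharPoly

variable {R : Type*} [CommRing R]

/-- `∏_{i<ℓ} (Y - u(ζ^i x))` -/
def ssncPoly (ℓ : ℕ) (ζ : Rˣ) (u : LaurentSeries R) : (LaurentSeries R)[X] :=
  ∏ i ∈ Finset.range ℓ, (X - C (gcjfRot (ζ ^ i) u))

theorem ssncPoly_monic (ℓ : ℕ) (ζ : Rˣ) (u : LaurentSeries R) : (ssncPoly ℓ ζ u).Monic :=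
  monic_prod_of_monic _ _ fun _ _ => monic_X_sub_C _

theorem ssncPoly_natDegree [Nontrivial R] (ℓ : ℕ) (ζ : Rˣ) (u : LaurentSeries R) :
    (ssncPoly ℓ ζ u).natDegree = ℓ := by
  rw [ssncPoly, natDegree_prod_of_monic _ _ fun i _ => monic_X_sub_C _]
  simp

/-- the polynomial is invariant under the rotation `x ↦ ζ x` of the coefficients -/
theorem ssncPoly_map_rot {ℓ : ℕ} [NeZero ℓ] {ζ : Rˣ} (hζ : ζ ^ ℓ = 1) (u : LaurentSeries R) :
    (ssncPoly ℓ ζ u).map (gcjfRot ζ) = ssncPoly ℓ ζ u := by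
  obtain ⟨m, rfl⟩ : ∃ m, ℓ = m + 1 := Nat.exists_eq_succ_of_ne_zero (NeZero.ne ℓ)
  have h1 : (ssncPoly (m + 1) ζ u).map (gcjfRot ζ) =
      ∏ i ∈ Finset.range (m + 1), (X - C (gcjfRot (ζ ^ (i + 1)) u)) := by
    rw [ssncPoly, Polynomial.map_prod]
    refine Finset.prod_congr rfl fun i _ => ?_
    rw [Polynomial.map_sub, map_X, map_C, ← gcjfRot_mul, pow_succ']
  rw [h1, Finset.prod_range_succ, hζ, ssncPoly, Finset.prod_range_succ', pow_zero]

/-- (W1-a, formal) the polynomial descends to `R((x^ℓ))` -/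
theorem ssnc_exists_descend [IsDomain R] {ℓ : ℕ} [NeZero ℓ] {ζ : Rˣ} (hζ : IsPrimitiveRoot ζ ℓ)
    (u : LaurentSeries R) :
    ∃ Ψ : (LaurentSeries R)[X], Ψ.Monic ∧ Ψ.natDegree = ℓ ∧
      Ψ.map (qExpand R ℓ) = ssncPoly ℓ ζ u := by
  have hinv := ssncPoly_map_rot hζ.pow_eq_one u
  have hl : ssncPoly ℓ ζ u ∈ lifts (qExpand R ℓ) := by
    rw [lifts_iff_coeff_lifts]
    intro n
    have h1 : gcjfRot ζ ((ssncPoly ℓ ζ u).coeff n) = (ssncPoly ℓ ζ u).coeff n := by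
      conv_rhs => rw [← hinv]
      rw [coeff_map]
    obtain ⟨V, hV⟩ := gcjf_exists_qExpand_eq_of_rot_eq hζ h1
    exact ⟨V, hV⟩
  obtain ⟨Ψ, hΨ⟩ := (mem_lifts _).1 hl
  have hinj : Function.Injective (qExpand R ℓ) := qExpand_injective ℓ
  refine ⟨Ψ, ?_, ?_, hΨ⟩
  · apply monic_of_injective hinj
    rw [hΨ]
    exact ssncPoly_monic ℓ ζ u
  · rw [← natDegree_map_eq_of_injective hinj, hΨ, ssncPoly_natDegree]

variable {k : Type*} [CommRing k]

/-- (W1-b, formal) THE CONGRUENCE for the whole polynomial : `π Ψ = Y^ℓ - φ(π u)`. -/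
theorem ssnc_map_coeffMap (π : R →+* k) (ℓ : ℕ) [Fact ℓ.Prime] [CharP k ℓ] {ζ : Rˣ}
    (hπ : π (ζ : R) = 1) (u : LaurentSeries R) (Ψ : (LaurentSeries R)[X])
    (hΨ : haveI : NeZero ℓ := ⟨(Fact.out : ℓ.Prime).ne_zero⟩
      Ψ.map (qExpand R ℓ) = ssncPoly ℓ ζ u) :
    Ψ.map (coeffMap π) = X ^ ℓ - C (coeffMap (frobenius k ℓ) (coeffMap π u)) := by
  have : NeZero ℓ := ⟨(Fact.out : ℓ.Prime).ne_zero⟩
  have hinj : Function.Injective (qExpand k ℓ) := qExpand_injective ℓ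
  apply Polynomial.map_injective _ hinj
  have hcomm : (qExpand k ℓ).comp (coeffMap π) = (coeffMap π).comp (qExpand R ℓ) := by
    ext1 f
    exact (coeffMap_qExpand π ℓ f).symm
  rw [Polynomial.map_map, hcomm, ← Polynomial.map_map, hΨ, ssncPoly, Polynomial.map_prod]
  have h1 : Units.map (π : R →* k) ζ = 1 := Units.ext hπ
  have h2 : ∀ i ∈ Finset.range ℓ, (X - C (gcjfRot (ζ ^ i) u)).map (coeffMap π) =
      X - C (coeffMap π u) := by
    intro i _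
    rw [Polynomial.map_sub, map_X, map_C, gcjfRot_coeffMap, map_pow, h1, one_pow, gcjfRot_one]
  rw [Finset.prod_congr rfl h2, Finset.prod_const, Finset.card_range]
  have : CharP (LaurentSeries k) ℓ :=
    charP_of_injective_ringHom (f := (HahnSeries.C : k →+* LaurentSeries k))
      HahnSeries.C_injective ℓ
  rw [sub_pow_char, ← C_pow, gcjf_pow_char, Polynomial.map_sub, Polynomial.map_pow, map_X, map_C]


/-- the full characteristic polynomial `(Y - u(t^ℓ)) Ψ` and its reduction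
`(Y - ū(t^ℓ)) (Y^ℓ - φ ū)`. -/
theorem ssnc_full_map_coeffMap (π : R →+* k) (ℓ : ℕ) [Fact ℓ.Prime] [CharP k ℓ] {ζ : Rˣ}
    (hπ : π (ζ : R) = 1) (u : LaurentSeries R) (Ψ : (LaurentSeries R)[X])
    (hΨ : haveI : NeZero ℓ := ⟨(Fact.out : ℓ.Prime).ne_zero⟩
      Ψ.map (qExpand R ℓ) = ssncPoly ℓ ζ u) :
    haveI : NeZero ℓ := ⟨(Fact.out : ℓ.Prime).ne_zero⟩
    ((X - C (qExpand R ℓ u)) * Ψ).map (coeffMap π) =
      (X - C (qExpand k ℓ (coeffMap π u))) *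
        (X ^ ℓ - C (coeffMap (frobenius k ℓ) (coeffMap π u))) := by
  have : NeZero ℓ := ⟨(Fact.out : ℓ.Prime).ne_zero⟩
  rw [Polynomial.map_mul, ssnc_map_coeffMap π ℓ hπ u Ψ hΨ, Polynomial.map_sub, map_X, map_C,
    coeffMap_qExpand]

/-- `u(t^ℓ)` is a root of the full polynomial. -/
theorem ssnc_full_eval {ℓ : ℕ} [NeZero ℓ] (u : LaurentSeries R) (Ψ : (LaurentSeries R)[X]) :
    ((X - C (qExpand R ℓ u)) * Ψ).eval (qExpand R ℓ u) = 0 := by
  rw [eval_mul, eval_sub, eval_X, eval_C, sub_self, zero_mul]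

end CharPoly

end Fermat.Agent.G
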